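/-
P-FF row 771 (FF-G7-DISCZERO), helper66.

* `discZero : Fermat.Agent.H94.FF.DiscZeroStatement` (unconditional): an element of the Gauss
  ring without poles on the disc of `Q` whose reduction has a simple zero at `Q` has exactly one
  zero in the disc, and it is simple.
* `divLift` / `divLift_geo`: divisor lifting.  For `u` in the Gauss ring with `red u ≠ 0` and a
  divisor `E ≤ div u` with `r_* E = div (red u)`: `div u = E`.
* generic `Finsupp` lemmas on push-forwards of divisors (`dz_exists_pos`,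
  `dz_eq_zero_of_mapDomain`, `dz_unique_of_mapDomain_one`).
-/
import Fermat.Agent.H94.FF.G7Interfaces

set_option autoImplicit false
set_option synthInstance.maxHeartbeats 400000
set_option maxHeartbeats 1600000
set_option linter.unusedSectionVars false

noncomputable section

open AlgebraicCurve ModularCurve Fermat.Agent.H18 Fermat.Agent.H27.ESD

namespace Fermat.Agent.H66.FF

open Fermat.Agent.H10.FF Fermat.Agent.H72.FF Fermat.Agent.H94.FF

/-! ### generic lemmas on push-forwards -/

/-- if the push-forward is positive at `b`, some point of the fibre of `b` has positive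
multiplicity -/
theorem dz_exists_pos {α β : Type*} (f : α → β) (D : α →₀ ℤ) (b : β)
    (h : 0 < Finsupp.mapDomain f D b) : ∃ a, f a = b ∧ 0 < D a := by
  classical
  by_contra hcon
  have hcon' : ∀ a, f a = b → D a ≤ 0 := fun a ha =>
    not_lt.mp fun hlt => hcon ⟨a, ha, hlt⟩
  have h1 : Finsupp.mapDomain f D b ≤ 0 := by
    rw [Finsupp.mapDomain, Finsupp.sum_apply, Finsupp.sum]
    refine Finset.sum_nonpos fun a _ => ?_
    rw [Finsupp.single_apply]
    split_ifs with h1
    · exact hcon' a h1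
    · exact le_rfl
  omega

/-- an effective divisor with vanishing push-forward vanishes -/
theorem dz_eq_zero_of_mapDomain {α β : Type*} (f : α → β) (D : α →₀ ℤ)
    (hD : ∀ a, 0 ≤ D a) (h : ∀ b, Finsupp.mapDomain f D b = 0) (a : α) : D a = 0 := by
  have h1 := rv_le_mapDomain f D (f a) a rfl (fun a' _ => hD a')
  rw [h] at h1
  exact le_antisymm h1 (hD a)

/-- a divisor which is effective on the fibre of `b` and whose push-forward has multiplicity `1`
at `b` is a single point with multiplicity one on the fibre -/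
theorem dz_unique_of_mapDomain_one {α β : Type*} (f : α → β) (D : α →₀ ℤ) (b : β)
    (hD : ∀ a', f a' = b → 0 ≤ D a') (h : Finsupp.mapDomain f D b = 1) :
    ∃ a, f a = b ∧ D a = 1 ∧ ∀ a', f a' = b → a' ≠ a → D a' = 0 := by
  obtain ⟨a, ha, hpos⟩ := dz_exists_pos f D b (by rw [h]; exact one_pos)
  have hle := rv_le_mapDomain f D b a ha hD
  rw [h] at hle
  have hDa : D a = 1 := by omega
  refine ⟨a, ha, hDa, ?_⟩
  intro a' ha' hne
  exact rv_eq_zero_of_mapDomain f D b a ha hD (by rw [h, hDa]) a' ha' hne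

/-! ### divisor lifting -/

/-- **Divisor lifting.**  If `u` is in the Gauss ring with `red u ≠ 0`, and `E` is a divisor with
`E ≤ div u` and `r_* E = div (red u)`, then `div u = E`. -/
theorem divLift {N : ℕ} {A : ValuationSubring Qb}
    {r : Place Qb (FLb N) → Place (kRes A) (Fkb A N)}
    (H : RvHyp A (IsLocalRing.residue A) N r) (u : gaussRing A N)
    (hu : gaussRed A N u ≠ 0) (E : Divisor Qb (FLb N))
    (hE : ∀ P, E P ≤ P.ord (u : FLb N))
    (hmap : ∀ Q, Finsupp.mapDomain r E Q = Q.ord (gaussRed A N u)) :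
    ∀ P, P.ord (u : FLb N) = E P := by
  obtain ⟨D, hD⟩ := H.hdiv _ (rv_coe_ne_zero_of_red_ne_zero hu)
  have h1 : ∀ Q, Finsupp.mapDomain r (D - E) Q = 0 := by
    intro Q
    rw [Finsupp.mapDomain_sub, Finsupp.sub_apply, H.mapDomain_eq u hu D hD Q, hmap Q, sub_self]
  have h2 : ∀ P, 0 ≤ (D - E) P := by
    intro P
    rw [Finsupp.sub_apply, hD]
    have := hE P
    omega
  intro P
  have h3 := dz_eq_zero_of_mapDomain r (D - E) h2 h1 P
  rw [Finsupp.sub_apply, hD] at h3
  omega

/-- `divLift` under the standing hypotheses `GeoSetup`. -/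
theorem divLift_geo {N ℓ : ℕ} {A : ValuationSubring Qb}
    {r : Place Qb (FLb N) → Place (kRes A) (Fkb A N)} {g : ℕ}
    (hG : GeoSetup N ℓ A r g) (u : gaussRing A N)
    (hu : gaussRed A N u ≠ 0) (E : Divisor Qb (FLb N))
    (hE : ∀ P, E P ≤ P.ord (u : FLb N))
    (hmap : ∀ Q, Finsupp.mapDomain r E Q = Q.ord (gaussRed A N u)) :
    ∀ P, P.ord (u : FLb N) = E P :=
  divLift hG.rv u hu E hE hmap

/-- the divisor of an element of the Gauss ring with nonzero reduction, together with the
compatibility `r_* div u = div (red u)` -/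
theorem exists_div_of_red_ne_zero {N : ℕ} {A : ValuationSubring Qb}
    {r : Place Qb (FLb N) → Place (kRes A) (Fkb A N)}
    (H : RvHyp A (IsLocalRing.residue A) N r) (u : gaussRing A N)
    (hu : gaussRed A N u ≠ 0) :
    ∃ D : Divisor Qb (FLb N), (∀ P, D P = P.ord (u : FLb N)) ∧
      ∀ Q, Finsupp.mapDomain r D Q = Q.ord (gaussRed A N u) := by
  obtain ⟨D, hD⟩ := H.hdiv _ (rv_coe_ne_zero_of_red_ne_zero hu)
  exact ⟨D, hD, fun Q => H.mapDomain_eq u hu D hD Q⟩

/-! ### DISC-ZERO -/

/-- `Q.ord (red u) ≠ 0` forces `red u ≠ 0` -/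
theorem red_ne_zero_of_ord_ne_zero {N : ℕ} {A : ValuationSubring Qb}
    (Q : Place (kRes A) (Fkb A N)) (u : gaussRing A N) (h : Q.ord (gaussRed A N u) ≠ 0) :
    gaussRed A N u ≠ 0 := by
  intro h0
  rw [h0, Place.ord_zero] at h
  exact h rfl

/-- **FF-G7-DISCZERO**, in terms of `RvHyp`. -/
theorem discZero_of_rvHyp {N : ℕ} {A : ValuationSubring Qb}
    {r : Place Qb (FLb N) → Place (kRes A) (Fkb A N)}
    (H : RvHyp A (IsLocalRing.residue A) N r)
    (Q : Place (kRes A) (Fkb A N)) (u : gaussRing A N) (hQ : Q.ord (gaussRed A N u) = 1)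
    (hnp : ∀ P1, r P1 = Q → 0 ≤ P1.ord (u : FLb N)) :
    ∃ P, r P = Q ∧ P.ord (u : FLb N) = 1 ∧
      ∀ P1, r P1 = Q → P1 ≠ P → P1.ord (u : FLb N) = 0 := by
  have hu : gaussRed A N u ≠ 0 :=
    red_ne_zero_of_ord_ne_zero Q u (by rw [hQ]; exact one_ne_zero)
  obtain ⟨D, hD, hmap⟩ := exists_div_of_red_ne_zero H u hu
  have h1 : Finsupp.mapDomain r D Q = 1 := by rw [hmap Q, hQ]
  have hnn : ∀ P1, r P1 = Q → 0 ≤ D P1 := fun P1 h => by rw [hD]; exact hnp P1 h
  obtain ⟨P, hP, hDP, hoth⟩ := dz_unique_of_mapDomain_one r D Q hnn h1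
  refine ⟨P, hP, by rw [← hD, hDP], ?_⟩
  intro P1 hP1 hne
  rw [← hD]
  exact hoth P1 hP1 hne

/-- **FF-G7-DISCZERO** (unconditional). -/
theorem discZero : DiscZeroStatement := by
  intro N ℓ A r g hG Q u hQ hnp
  exact discZero_of_rvHyp hG.rv Q u hQ hnp

end Fermat.Agent.H66.FF
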